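/-
Fermat/Agent/MAZ/FinAbs19/EndRing.lean  (helper19)

Programme MAZ (S15), brick S-FIN-ABS, part 2: **plumbing from endomorphisms to modules**.

`J` an abelian group, `g : ι → Module.End ℤ J` a family of pairwise commuting endomorphisms (for
Mazur: `J = JZero p`, `g q = heckeOperatorBar p q`, `q ∉ S`).  We package

* `HeckeT g hcomm` : the subring of `End J` generated by the `g i`, as a COMMUTATIVE ring of its own
  (no instance diamond with the subring structure), `HeckeT.toEnd : HeckeT g hcomm →+* End J`;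
* `J` as a module over it (`t • x = t x`);
* a subgroup of `J` stable under the `g i` as a submodule (`stableSub`), the `r ^ k`-torsion as a
  submodule (`rtors`);
* `closure_stable`, `closure_eigen`, `closure_commute` : stability / eigenvector property /
  commutation with a given endomorphism pass from the generators to the generated subring;
* `etaEnd g n i := g i - n i` and the elementary predicate `IsEisProj g n r k e` ("`e` acts on
  `J[r ^ k]` as a projector onto its Eisenstein part"), and its relation with `Alg5.IsProj`.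

Mathlib + `MAZ/Alg5` only.
-/
import Mathlib
import Fermat.Agent.MAZ.Alg5.NilPart
import Fermat.Agent.MAZ.Alg5.Nakayama

set_option autoImplicit false
set_option linter.unusedSectionVars false
set_option linter.unusedVariables false
set_option linter.style.haveILetI false

namespace Fermat.Agent.MAZ.FinAbs19

open Fermat.Agent.MAZ.Alg5

universe u v w

section Closure

variable {J : Type u} [AddCommGroup J] {ι : Type v} (g : ι → Module.End ℤ J)

/-- A subgroup stable under the generators is stable under the generated subring. -/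
theorem closure_stable (JQ : AddSubgroup J) (hst : ∀ i, ∀ y ∈ JQ, g i y ∈ JQ) :
    ∀ t ∈ Subring.closure (Set.range g), ∀ y ∈ JQ, t y ∈ JQ := by
  intro t ht
  induction ht using Subring.closure_induction with
  | mem x hx =>
    obtain ⟨i, rfl⟩ := hx
    exact hst i
  | zero =>
    intro y _
    rw [LinearMap.zero_apply]
    exact JQ.zero_mem
  | one =>
    intro y hy
    rw [Module.End.one_apply]
    exact hy
  | add a b _ _ ha hb =>
    intro y hy
    rw [LinearMap.add_apply]
    exact JQ.add_mem (ha y hy) (hb y hy)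
  | neg a _ ha =>
    intro y hy
    rw [LinearMap.neg_apply]
    exact JQ.neg_mem (ha y hy)
  | mul a b _ _ ha hb =>
    intro y hy
    rw [Module.End.mul_apply]
    exact ha _ (hb y hy)

/-- If the generators act on `c` through integers, so does the generated subring. -/
theorem closure_eigen (c : J) (n : ι → ℤ) (hc : ∀ i, g i c = n i • c) :
    ∀ t ∈ Subring.closure (Set.range g), ∃ s : ℤ, t c = s • c := by
  intro t ht
  induction ht using Subring.closure_induction with
  | mem x hx =>
    obtain ⟨i, rfl⟩ := hx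
    exact ⟨n i, hc i⟩
  | zero => exact ⟨0, by rw [LinearMap.zero_apply, zero_smul]⟩
  | one => exact ⟨1, by rw [Module.End.one_apply, one_smul]⟩
  | add a b _ _ ha hb =>
    obtain ⟨s, hs⟩ := ha
    obtain ⟨s', hs'⟩ := hb
    exact ⟨s + s', by rw [LinearMap.add_apply, hs, hs', add_smul]⟩
  | neg a _ ha =>
    obtain ⟨s, hs⟩ := ha
    exact ⟨-s, by rw [LinearMap.neg_apply, hs, neg_smul]⟩
  | mul a b _ _ ha hb =>
    obtain ⟨s, hs⟩ := ha
    obtain ⟨s', hs'⟩ := hb
    exact ⟨s' * s, by rw [Module.End.mul_apply, hs', map_zsmul, hs, mul_smul]⟩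

/-- An additive endomorphism commuting with the generators commutes with the generated subring
(for Mazur: `σ ∈ Gal(ℚ̄/ℚ)` and the Hecke operators). -/
theorem closure_commute (σ : J →+ J) (hσ : ∀ i x, g i (σ x) = σ (g i x)) :
    ∀ t ∈ Subring.closure (Set.range g), ∀ x, t (σ x) = σ (t x) := by
  intro t ht
  induction ht using Subring.closure_induction with
  | mem y hy =>
    obtain ⟨i, rfl⟩ := hy
    exact hσ i
  | zero =>
    intro x
    rw [LinearMap.zero_apply, LinearMap.zero_apply, map_zero]
  | one =>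
    intro x
    rw [Module.End.one_apply, Module.End.one_apply]
  | add a b _ _ ha hb =>
    intro x
    rw [LinearMap.add_apply, LinearMap.add_apply, ha, hb, map_add]
  | neg a _ ha =>
    intro x
    rw [LinearMap.neg_apply, LinearMap.neg_apply, ha, map_neg]
  | mul a b _ _ ha hb =>
    intro x
    rw [Module.End.mul_apply, Module.End.mul_apply, hb, ha]

/-- Pairwise commuting generators generate a commutative subring. -/
theorem closure_mul_comm (hcomm : ∀ i j, g i * g j = g j * g i)
    (a b : ↥(Subring.closure (Set.range g))) : a * b = b * a := by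
  have h : IsMulCommutative ↥(Subring.closure (Set.range g)) :=
    Subring.isMulCommutative_closure (s := Set.range g)
      (by rintro _ ⟨i, rfl⟩ _ ⟨j, rfl⟩; exact hcomm i j)
  exact h.is_comm.comm a b

end Closure

/-! ### The commutative ring `HeckeT` -/

section HeckeT

variable {J : Type u} [AddCommGroup J] {ι : Type v} (g : ι → Module.End ℤ J)
  (hcomm : ∀ i j, g i * g j = g j * g i)

/-- The subring of `End J` generated by the pairwise commuting `g i`, as a type of its own. -/
def HeckeT (hcomm : ∀ i j, g i * g j = g j * g i) : Type u :=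
  ↥(Subring.closure (Set.range g))

namespace HeckeT

instance instCommRing : CommRing (HeckeT g hcomm) :=
  { (inferInstance : Ring ↥(Subring.closure (Set.range g))) with
    mul_comm := closure_mul_comm g hcomm }

/-- The underlying endomorphism. -/
def toEnd : HeckeT g hcomm →+* Module.End ℤ J where
  toFun t := (show ↥(Subring.closure (Set.range g)) from t).1
  map_one' := rfl
  map_mul' _ _ := rfl
  map_zero' := rfl
  map_add' _ _ := rfl

theorem toEnd_mem (t : HeckeT g hcomm) : toEnd g hcomm t ∈ Subring.closure (Set.range g) :=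
  (show ↥(Subring.closure (Set.range g)) from t).2

theorem toEnd_injective : Function.Injective (toEnd g hcomm) := fun _ _ h => Subtype.ext h

/-- An element of the generated subring as an element of `HeckeT`. -/
def ofMem (e : Module.End ℤ J) (he : e ∈ Subring.closure (Set.range g)) : HeckeT g hcomm :=
  (⟨e, he⟩ : ↥(Subring.closure (Set.range g)))

@[simp] theorem toEnd_ofMem (e : Module.End ℤ J) (he : e ∈ Subring.closure (Set.range g)) :
    toEnd g hcomm (ofMem g hcomm e he) = e := rfl

/-- `J` as a module over `HeckeT`: `t • x = t x`. -/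
instance instModule : Module (HeckeT g hcomm) J := Module.compHom J (toEnd g hcomm)

theorem smul_def (t : HeckeT g hcomm) (x : J) : t • x = toEnd g hcomm t x := rfl

/-- The generator `g i` in `HeckeT`. -/
def genT (i : ι) : HeckeT g hcomm := ofMem g hcomm (g i) (Subring.subset_closure ⟨i, rfl⟩)

@[simp] theorem toEnd_genT (i : ι) : toEnd g hcomm (genT g hcomm i) = g i := rfl

end HeckeT

/-- `η i := g i - n i` as an endomorphism. -/
def etaEnd (n : ι → ℤ) (i : ι) : Module.End ℤ J := g i - (n i : Module.End ℤ J)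

theorem etaEnd_apply (n : ι → ℤ) (i : ι) (x : J) : etaEnd g n i x = g i x - n i • x := by
  rw [etaEnd, LinearMap.sub_apply, Module.End.intCast_apply]

theorem etaEnd_mem (n : ι → ℤ) (i : ι) : etaEnd g n i ∈ Subring.closure (Set.range g) :=
  Subring.sub_mem _ (Subring.subset_closure ⟨i, rfl⟩) (intCast_mem _ _)

/-- `η i` in `HeckeT`. -/
def etaT (n : ι → ℤ) (i : ι) : HeckeT g hcomm := HeckeT.ofMem g hcomm (etaEnd g n i) (etaEnd_mem g n i)

@[simp] theorem toEnd_etaT (n : ι → ℤ) (i : ι) :
    HeckeT.toEnd g hcomm (etaT g hcomm n i) = etaEnd g n i := rfl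

theorem etaT_pow_smul (n : ι → ℤ) (i : ι) (m : ℕ) (x : J) :
    (etaT g hcomm n i) ^ m • x = (etaEnd g n i ^ m) x := by
  rw [HeckeT.smul_def, map_pow, toEnd_etaT]

theorem natCast_smul' (a : ℕ) (x : J) : ((a : HeckeT g hcomm)) • x = a • x :=
  Nat.cast_smul_eq_nsmul _ a x

/-- A subgroup stable under the `g i`, as a `HeckeT`-submodule. -/
def stableSub (JQ : AddSubgroup J) (hst : ∀ i, ∀ y ∈ JQ, g i y ∈ JQ) :
    Submodule (HeckeT g hcomm) J where
  carrier := {y | y ∈ JQ}
  add_mem' := fun ha hb => JQ.add_mem ha hb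
  zero_mem' := JQ.zero_mem
  smul_mem' := fun t y hy => closure_stable g JQ hst _ (HeckeT.toEnd_mem g hcomm t) y hy

theorem mem_stableSub (JQ : AddSubgroup J) (hst : ∀ i, ∀ y ∈ JQ, g i y ∈ JQ) {y : J} :
    y ∈ stableSub g hcomm JQ hst ↔ y ∈ JQ := Iff.rfl

/-- The identification of the submodule `stableSub` with the subgroup it comes from. -/
def stableSubEquiv (JQ : AddSubgroup J) (hst : ∀ i, ∀ y ∈ JQ, g i y ∈ JQ) :
    ↥(stableSub g hcomm JQ hst) ≃+ ↥JQ where
  toFun y := ⟨y.1, y.2⟩
  invFun y := ⟨y.1, y.2⟩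
  left_inv _ := rfl
  right_inv _ := rfl
  map_add' _ _ := rfl

@[simp] theorem coe_stableSubEquiv (JQ : AddSubgroup J) (hst : ∀ i, ∀ y ∈ JQ, g i y ∈ JQ)
    (y : ↥(stableSub g hcomm JQ hst)) : ((stableSubEquiv g hcomm JQ hst y : ↥JQ) : J) = (y : J) := rfl

theorem finite_stableSub (JQ : AddSubgroup J) (hst : ∀ i, ∀ y ∈ JQ, g i y ∈ JQ)
    (hfg : AddGroup.FG ↥JQ) : Module.Finite ℤ ↥(stableSub g hcomm JQ hst) := by
  haveI := hfg
  exact Module.Finite.iff_addGroup_fg.2
    (AddGroup.fg_of_surjective (f := (stableSubEquiv g hcomm JQ hst).symm.toAddMonoidHom)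
      (stableSubEquiv g hcomm JQ hst).symm.surjective)

/-- The `r ^ k`-torsion of `J`, as a `HeckeT`-submodule. -/
def rtors (r k : ℕ) : Submodule (HeckeT g hcomm) J where
  carrier := {x | r ^ k • x = 0}
  add_mem' := by
    intro a b ha hb
    show r ^ k • (a + b) = 0
    rw [smul_add, ha, hb, add_zero]
  zero_mem' := smul_zero _
  smul_mem' := by
    intro t x hx
    show r ^ k • (HeckeT.toEnd g hcomm t x) = 0
    rw [← map_nsmul, hx, map_zero]

theorem mem_rtors {r k : ℕ} {x : J} : x ∈ rtors g hcomm r k ↔ r ^ k • x = 0 := Iff.rfl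

theorem finite_rtors (r k : ℕ) (hfin : Finite {x : J // r ^ k • x = 0}) :
    Finite ↥(rtors g hcomm r k) :=
  Finite.of_injective (fun x : ↥(rtors g hcomm r k) => (⟨x.1, x.2⟩ : {x : J // r ^ k • x = 0}))
    fun a b h => Subtype.ext (congrArg Subtype.val h)

/-- **Elementary form of "`e` is a projector onto the Eisenstein part of `J[r ^ k]`"**: `e` maps
`J[r ^ k]` into `G_k := {x ∈ J[r ^ k] | ∀ i, η i is nilpotent on x}` and is the identity on `G_k`. -/
def IsEisProj (n : ι → ℤ) (r k : ℕ) (e : Module.End ℤ J) : Prop :=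
  ∀ x : J, r ^ k • x = 0 →
    (∀ i, ∃ m : ℕ, (etaEnd g n i ^ m) (e x) = 0) ∧
      ((∀ i, ∃ m : ℕ, (etaEnd g n i ^ m) x = 0) → e x = x)

theorem IsEisProj.map_mem {n : ι → ℤ} {r k : ℕ} {e : Module.End ℤ J} (h : IsEisProj g n r k e)
    {x : J} (hx : r ^ k • x = 0) (i : ι) : ∃ m : ℕ, (etaEnd g n i ^ m) (e x) = 0 := (h x hx).1 i

theorem IsEisProj.apply_eq {n : ι → ℤ} {r k : ℕ} {e : Module.End ℤ J} (h : IsEisProj g n r k e)
    {x : J} (hx : r ^ k • x = 0) (hx' : ∀ i, ∃ m : ℕ, (etaEnd g n i ^ m) x = 0) : e x = x :=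
  (h x hx).2 hx'

/-- `e` is idempotent on `J[r ^ k]`. -/
theorem IsEisProj.apply_apply {n : ι → ℤ} {r k : ℕ} {e : Module.End ℤ J} (h : IsEisProj g n r k e)
    {x : J} (hx : r ^ k • x = 0) : e (e x) = e x := by
  have hx2 : r ^ k • e x = 0 := by rw [← map_nsmul, hx, map_zero]
  exact h.apply_eq g hx2 (h.map_mem g hx)

/-- A projector in the sense of `Alg5.IsProj` on the module `J[r ^ k]` is an `IsEisProj`. -/
theorem isEisProj_of_isProj (n : ι → ℤ) (r k : ℕ) (e : HeckeT g hcomm)
    (he : IsProj (gen r (etaT g hcomm n)) e ↥(rtors g hcomm r k)) :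
    IsEisProj g n r k (HeckeT.toEnd g hcomm e) := by
  intro x hx
  refine ⟨fun i => ?_, fun hx' => ?_⟩
  · obtain ⟨m, hm⟩ := he.1 ⟨x, hx⟩ (some i)
    refine ⟨m, ?_⟩
    have h1 := congrArg Subtype.val hm
    rw [gen_some] at h1
    have h2 : (((etaT g hcomm n i) ^ m • (e • (⟨x, hx⟩ : ↥(rtors g hcomm r k))) :
        ↥(rtors g hcomm r k)) : J) = (etaT g hcomm n i) ^ m • (e • x) := rfl
    rw [h2, etaT_pow_smul, HeckeT.smul_def] at h1
    exact h1
  · have hmem : (⟨x, hx⟩ : ↥(rtors g hcomm r k)) ∈
        nilPart (gen r (etaT g hcomm n)) ↥(rtors g hcomm r k) := by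
      intro o
      cases o with
      | none =>
        refine ⟨k, Subtype.ext ?_⟩
        rw [gen_none]
        show ((r : HeckeT g hcomm) ^ k) • x = 0
        rw [← Nat.cast_pow, natCast_smul']
        exact hx
      | some i =>
        obtain ⟨m, hm⟩ := hx' i
        refine ⟨m, Subtype.ext ?_⟩
        rw [gen_some]
        show (etaT g hcomm n i) ^ m • x = 0
        rw [etaT_pow_smul]
        exact hm
    have h1 := congrArg Subtype.val (he.2 _ hmem)
    exact h1

/-- **Existence of the Eisenstein projector** on `J[r ^ k]` (finite) inside the generated subring. -/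
theorem exists_isEisProj (hcomm : ∀ i j, g i * g j = g j * g i) (n : ι → ℤ) (r k : ℕ)
    (hfin : Finite {x : J // r ^ k • x = 0}) :
    ∃ e ∈ Subring.closure (Set.range g), IsEisProj g n r k e := by
  haveI : Finite ↥(rtors g hcomm r k) := finite_rtors g hcomm r k hfin
  obtain ⟨e, he, -⟩ := exists_isProj₂ (gen r (etaT g hcomm n)) ↥(rtors g hcomm r k)
    ↥(rtors g hcomm r k)
  exact ⟨HeckeT.toEnd g hcomm e, HeckeT.toEnd_mem g hcomm e, isEisProj_of_isProj g hcomm n r k e he⟩

end HeckeT

end Fermat.Agent.MAZ.FinAbs19
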