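/-
Fermat/Agent/MAZ/FinAbs19/Module.lean  (helper19)

Programme MAZ (S15), brick S-FIN-ABS, part 1: **the abstract descent at module level**.

`T` a commutative ring, `r` a prime, `η : ι → T`, `m := (r, η i)`, `A` a `T`-module which is finitely
generated as an abelian group.  `Alg5.exists_annihilator` (helper5) turns the bound

  (DESC)  `|N • (A / r ^ k A)_m| ≤ C` for all `k`

into an element `t ∈ 1 + m` with `t • A ⊆ torsion`.  This file feeds (DESC) from "Kummer type" data:

* `exists_annihilator_of_homs` (level 0): for every `k` a homomorphism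
  `φ : (A / r ^ k A)_m → X` into a group with a finite subgroup `S ⊇ im φ`, `|S| ≤ C`, whose kernel
  is killed by `N`;
* `exists_annihilator_of_projector_descent` (level 1): the same with `φ : A → X` defined on `A`
  itself, and the condition "the class of `y` lies in the `m`-part of `A / r ^ k A`" replaced by
  the congruence `y ≡ e • y mod r ^ k A` for a projector `e ∈ T` onto the `m`-part of a given
  auxiliary finite `T`-module `M k` (for Mazur: `M k = J[r ^ k]`, so that `e` cuts out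
  `G_k = J[r ^ k]_m` and the Kummer class of `y ≡ e • y` comes from `H¹(G_k)`).

Mathlib + `MAZ/Alg5/{NilPart,Nakayama}` only.
-/
import Mathlib
import Fermat.Agent.MAZ.Alg5.NilPart
import Fermat.Agent.MAZ.Alg5.Nakayama

set_option autoImplicit false
set_option linter.unusedSectionVars false
set_option linter.unusedVariables false
set_option linter.style.haveILetI false

namespace Fermat.Agent.MAZ.FinAbs19

open Fermat.Agent.MAZ.Alg5

universe u v w w' w''

section ModuleLevel

variable {T : Type u} [CommRing T] {ι : Type v} (r : ℕ) (η : ι → T)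
variable (A : Type w) [AddCommGroup A] [Module T A]

/-- **Level 0.**  (DESC) from homomorphisms on the `m`-parts of the quotients `A / r ^ k A` into
groups with a bounded finite subgroup containing the image, the kernels being killed by `N`. -/
theorem exists_annihilator_of_homs [Module.Finite ℤ A] (hr : r.Prime) (N C : ℕ) (hN : 0 < N)
    (hdesc : ∀ k : ℕ, ∃ (X : Type w') (_ : AddCommGroup X) (S : AddSubgroup X)
        (φ : (nilPart (gen r η) (A ⧸ mulRange (((r ^ k : ℕ) : T)) A)).toAddSubgroup →+ X),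
        Finite S ∧ Nat.card S ≤ C ∧ (∀ x, φ x ∈ S) ∧
          ∀ x, φ x = 0 → N • (x : A ⧸ mulRange (((r ^ k : ℕ) : T)) A) = 0) :
    ∃ t : T, t - 1 ∈ Ideal.span (insert (r : T) (Set.range η)) ∧
      ∀ a : A, ∃ n : ℕ, 0 < n ∧ n • (t • a) = 0 := by
  refine exists_annihilator r η A hr N C hN fun k => ?_
  obtain ⟨X, instX, S, φ, hfin, hC, hS, hker⟩ := hdesc k
  haveI := hfin
  exact le_trans (card_map_nsmul_le_of_hom _ φ S N hS hker) hC

/-- **Level 1.**  (DESC) from maps `φ : A → X` ("Kummer maps") defined on `A` itself.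
`M k` is an auxiliary finite `T`-module (`J[r ^ k]`); for every element `e` of `T` acting on `M k`
as a projector onto its `m`-part one has to produce `X ⊇ S` finite, `|S| ≤ C`, and `φ : A →+ X`
with
* `φ (r ^ k • z) = 0`;
* `y ≡ e • y mod r ^ k A  ⇒  φ y ∈ S`;
* `y ≡ e • y mod r ^ k A`, `φ y = 0  ⇒  N • y ∈ r ^ k A`.
-/
theorem exists_annihilator_of_projector_descent [Module.Finite ℤ A] (hr : r.Prime)
    (M : ℕ → Type w') [∀ k, AddCommGroup (M k)] [∀ k, Module T (M k)] [∀ k, Finite (M k)]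
    (N C : ℕ) (hN : 0 < N)
    (hdesc : ∀ k : ℕ, ∀ e : T, IsProj (gen r η) e (M k) →
      ∃ (X : Type w'') (_ : AddCommGroup X) (S : AddSubgroup X) (φ : A →+ X),
        Finite S ∧ Nat.card S ≤ C ∧
        (∀ z : A, φ (r ^ k • z) = 0) ∧
        (∀ y : A, (∃ z : A, y - e • y = r ^ k • z) → φ y ∈ S) ∧
        (∀ y : A, (∃ z : A, y - e • y = r ^ k • z) → φ y = 0 → ∃ z : A, N • y = r ^ k • z)) :
    ∃ t : T, t - 1 ∈ Ideal.span (insert (r : T) (Set.range η)) ∧
      ∀ a : A, ∃ n : ℕ, 0 < n ∧ n • (t • a) = 0 := by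
  classical
  refine exists_annihilator_of_homs r η A hr N C hN fun k => ?_
  set c : T := ((r ^ k : ℕ) : T) with hc
  have hcs : ∀ z : A, c • z = r ^ k • z := fun z => by rw [hc, Nat.cast_smul_eq_nsmul]
  haveI : Finite (A ⧸ mulRange c A) := finite_quotient_mulRange A (pow_pos hr.pos k)
  obtain ⟨e, heM, heQ⟩ := exists_isProj₂ (gen r η) (M k) (A ⧸ mulRange c A)
  obtain ⟨X, instX, S, φ, hfin, hC, hφ0, hφS, hφker⟩ := hdesc k e heM
  -- `φ` descends to the quotient
  have hle : (mulRange c A).toAddSubgroup ≤ φ.ker := by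
    rintro _ ⟨z, rfl⟩
    show φ (c • z) = 0
    rw [hcs]
    exact hφ0 z
  let φbar : (A ⧸ mulRange c A) →+ X :=
    QuotientAddGroup.lift (mulRange c A).toAddSubgroup φ hle
  have hφbar : ∀ y : A, φbar (Submodule.Quotient.mk y) = φ y := fun y => rfl
  -- lifts of elements of the `m`-part satisfy the congruence
  have hcong : ∀ y : A,
      (Submodule.Quotient.mk y : A ⧸ mulRange c A) ∈ nilPart (gen r η) (A ⧸ mulRange c A) →
        ∃ z : A, y - e • y = r ^ k • z := by
    intro y hy
    have h1 := heQ.2 _ hy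
    have h2 : (Submodule.Quotient.mk (y - e • y) : A ⧸ mulRange c A) = 0 := by
      rw [Submodule.Quotient.mk_sub, Submodule.Quotient.mk_smul, h1, sub_self]
    rw [Submodule.Quotient.mk_eq_zero] at h2
    obtain ⟨z, hz⟩ := h2
    refine ⟨z, ?_⟩
    rw [← hcs]
    exact hz.symm
  refine ⟨X, instX, S,
    φbar.comp (nilPart (gen r η) (A ⧸ mulRange c A)).toAddSubgroup.subtype, hfin, hC, ?_, ?_⟩
  · rintro ⟨x, hx⟩
    obtain ⟨y, rfl⟩ := Submodule.Quotient.mk_surjective _ x
    exact hφS y (hcong y hx)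
  · rintro ⟨x, hx⟩ h0
    obtain ⟨y, rfl⟩ := Submodule.Quotient.mk_surjective _ x
    obtain ⟨z, hz⟩ := hφker y (hcong y hx) h0
    show N • (Submodule.Quotient.mk y : A ⧸ mulRange c A) = 0
    have h3 : N • (Submodule.Quotient.mk y : A ⧸ mulRange c A) =
        Submodule.Quotient.mk (N • y) := (map_nsmul (mulRange c A).mkQ N y).symm
    rw [h3, hz, Submodule.Quotient.mk_eq_zero]
    exact ⟨z, hcs z⟩

/-- **Level 1, `k ≥ 1` only.**  The descent data are only needed for `k ≥ 1` (the case `k = 0` is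
degenerate: `A / r ^ 0 A = 0`). -/
theorem exists_annihilator_of_projector_descent_pos [Module.Finite ℤ A] (hr : r.Prime)
    (M : ℕ → Type w') [∀ k, AddCommGroup (M k)] [∀ k, Module T (M k)] [∀ k, Finite (M k)]
    (N C : ℕ) (hN : 0 < N)
    (hdesc : ∀ k : ℕ, 0 < k → ∀ e : T, IsProj (gen r η) e (M k) →
      ∃ (X : Type w'') (_ : AddCommGroup X) (S : AddSubgroup X) (φ : A →+ X),
        Finite S ∧ Nat.card S ≤ C ∧
        (∀ z : A, φ (r ^ k • z) = 0) ∧
        (∀ y : A, (∃ z : A, y - e • y = r ^ k • z) → φ y ∈ S) ∧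
        (∀ y : A, (∃ z : A, y - e • y = r ^ k • z) → φ y = 0 → ∃ z : A, N • y = r ^ k • z)) :
    ∃ t : T, t - 1 ∈ Ideal.span (insert (r : T) (Set.range η)) ∧
      ∀ a : A, ∃ n : ℕ, 0 < n ∧ n • (t • a) = 0 := by
  obtain ⟨e₁, he₁, -⟩ := exists_isProj₂ (gen r η) (M 1) (M 1)
  obtain ⟨X₁, instX₁, S₁, φ₁, hfin₁, hC₁, -, -, -⟩ := hdesc 1 Nat.one_pos e₁ he₁
  refine exists_annihilator_of_projector_descent r η A hr M N C hN fun k e he => ?_
  rcases Nat.eq_zero_or_pos k with rfl | hk
  · exact ⟨X₁, instX₁, S₁, 0, hfin₁, hC₁, fun _ => rfl, fun _ _ => S₁.zero_mem,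
      fun y _ _ => ⟨N • y, by rw [pow_zero, one_smul]⟩⟩
  · exact hdesc k hk e he

end ModuleLevel

end Fermat.Agent.MAZ.FinAbs19
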