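/-
Fermat/Agent/MAZ/FinAbs19/Main.lean  (helper19)

Programme MAZ (S15), brick S-FIN-ABS, part 3: **the abstract form of (FIN')**.

`eisenstein_fin_of_descent` has EXACTLY the conclusion of helper99's `eisenstein_fin` (report 959)

  `∃ t ∈ T', (∃ s : ℤ, ¬ (r : ℤ) ∣ s ∧ t c0 = s • c0) ∧ ∀ y ∈ JQ, ∃ N, 0 < N ∧ N • t y = 0`

for an abstract abelian group `J` with pairwise commuting endomorphisms `g i` (`T' := ` the subring
they generate), a `g`-stable finitely generated subgroup `JQ`, an Eisenstein eigenvector `c0`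
(`g i c0 = n i • c0`; `η i := g i - n i`), a prime `r` with `J[r ^ k]` finite, and the descent data:

  for every `k` and every `e ∈ T'` which acts on `J[r ^ k]` as a projector onto its Eisenstein part
  (`IsEisProj`), a group `X`, a finite subgroup `S ≤ X` with `|S| ≤ C` and `φ : JQ →+ X` with
   (D0) `φ (r ^ k • z) = 0`,
   (D1) `y ≡ e y mod r ^ k JQ ⇒ φ y ∈ S`,
   (D2) `y ≡ e y mod r ^ k JQ`, `φ y = 0 ⇒ N • y ∈ r ^ k JQ`.

For Mazur: `X = H¹(G_k)`, `S = Sel(G_k)`, `φ = N₂ • (e_* ∘ Kummer)`; (D0) and (D2) are K-DEF (kernel of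
the Kummer map) and (D1) is (K1)+(K2)+(K3)+(K-inf); `|S| ≤ C` is S-SEL + L-A4.

No module, quotient or `nilPart` appears in the hypotheses.  Mathlib + `MAZ/Alg5` only.
-/
import Mathlib
import Fermat.Agent.MAZ.Alg5.NilPart
import Fermat.Agent.MAZ.Alg5.Nakayama
import Fermat.Agent.MAZ.FinAbs19.Module
import Fermat.Agent.MAZ.FinAbs19.EndRing

set_option autoImplicit false
set_option linter.unusedSectionVars false
set_option linter.unusedVariables false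
set_option linter.style.haveILetI false

namespace Fermat.Agent.MAZ.FinAbs19

open Fermat.Agent.MAZ.Alg5

universe u v w

section Main

variable {J : Type u} [AddCommGroup J] {ι : Type v} (g : ι → Module.End ℤ J)

/-- **S-FIN-ABS, indexed form.** -/
theorem eisenstein_fin_of_descent
    (hcomm : ∀ i j, g i * g j = g j * g i)
    (n : ι → ℤ) (c0 : J) (hc0 : ∀ i, g i c0 = n i • c0)
    (JQ : AddSubgroup J) (hst : ∀ i, ∀ y ∈ JQ, g i y ∈ JQ) (hfg : AddGroup.FG ↥JQ)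
    (r : ℕ) (hr : r.Prime) (hfin : ∀ k : ℕ, Finite {x : J // r ^ k • x = 0})
    (N C : ℕ) (hN : 0 < N)
    (hdesc : ∀ k : ℕ, ∀ e ∈ Subring.closure (Set.range g), IsEisProj g n r k e →
      ∃ (X : Type w) (_ : AddCommGroup X) (S : AddSubgroup X) (φ : ↥JQ →+ X),
        Finite S ∧ Nat.card S ≤ C ∧
        (∀ z : ↥JQ, φ (r ^ k • z) = 0) ∧
        (∀ y : ↥JQ, (∃ z : ↥JQ, (y : J) - e y = r ^ k • (z : J)) → φ y ∈ S) ∧
        (∀ y : ↥JQ, (∃ z : ↥JQ, (y : J) - e y = r ^ k • (z : J)) → φ y = 0 →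
          ∃ z : ↥JQ, N • (y : J) = r ^ k • (z : J))) :
    ∃ t ∈ Subring.closure (Set.range g),
      (∃ s : ℤ, ¬ (r : ℤ) ∣ s ∧ t c0 = s • c0) ∧
        ∀ y ∈ JQ, ∃ M : ℕ, 0 < M ∧ M • t y = 0 := by
  classical
  -- the module-level data
  let A : Submodule (HeckeT g hcomm) J := stableSub g hcomm JQ hst
  haveI : Module.Finite ℤ ↥A := finite_stableSub g hcomm JQ hst hfg
  haveI : ∀ k : ℕ, Finite ↥(rtors g hcomm r k) := fun k => finite_rtors g hcomm r k (hfin k)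
  let ε : ↥A ≃+ ↥JQ := stableSubEquiv g hcomm JQ hst
  have key := exists_annihilator_of_projector_descent (T := HeckeT g hcomm) r (etaT g hcomm n)
    ↥A hr (fun k => ↥(rtors g hcomm r k)) N C hN (by
      intro k e heM
      have he := isEisProj_of_isProj g hcomm n r k e heM
      obtain ⟨X, instX, S, φ, hSfin, hC, h0, h1, h2⟩ :=
        hdesc k (HeckeT.toEnd g hcomm e) (HeckeT.toEnd_mem g hcomm e) he
      -- congruences in `A` are congruences in `JQ`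
      have hcg : ∀ y : ↥A, (∃ z : ↥A, y - e • y = r ^ k • z) →
          ∃ z : ↥JQ, ((ε y : ↥JQ) : J) - HeckeT.toEnd g hcomm e ((ε y : ↥JQ) : J) =
            r ^ k • (z : J) := by
        rintro y ⟨z, hz⟩
        refine ⟨ε z, ?_⟩
        have := congrArg Subtype.val hz
        exact this
      refine ⟨X, instX, S, φ.comp ε.toAddMonoidHom, hSfin, hC, ?_, ?_, ?_⟩
      · intro z
        show φ (ε (r ^ k • z)) = 0
        rw [map_nsmul]
        exact h0 (ε z)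
      · intro y hy
        exact h1 (ε y) (hcg y hy)
      · intro y hy hφ
        obtain ⟨z, hz⟩ := h2 (ε y) (hcg y hy) hφ
        exact ⟨ε.symm z, Subtype.ext hz⟩)
  obtain ⟨t, ht, htors⟩ := key
  refine ⟨HeckeT.toEnd g hcomm t, HeckeT.toEnd_mem g hcomm t, ?_, ?_⟩
  · -- the eigenvector clause
    have hstab : ∀ u : HeckeT g hcomm, ∃ s : ℤ, u • c0 = s • c0 := fun u =>
      closure_eigen g c0 n hc0 _ (HeckeT.toEnd_mem g hcomm u)
    have hη : ∀ i, etaT g hcomm n i • c0 = 0 := by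
      intro i
      rw [HeckeT.smul_def, toEnd_etaT, etaEnd_apply, hc0, sub_self]
    obtain ⟨s, hs, hts⟩ := smul_eq_zsmul_of_sub_one_mem' r (etaT g hcomm n) hr c0 hstab hη ht
    exact ⟨s, hs, hts⟩
  · intro y hy
    obtain ⟨M, hM, h⟩ := htors ⟨y, hy⟩
    exact ⟨M, hM, congrArg Subtype.val h⟩

/-- **S-FIN-ABS, indexed form, `k ≥ 1` only**: the descent data are only needed for `k ≥ 1`. -/
theorem eisenstein_fin_of_descent_pos
    (hcomm : ∀ i j, g i * g j = g j * g i)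
    (n : ι → ℤ) (c0 : J) (hc0 : ∀ i, g i c0 = n i • c0)
    (JQ : AddSubgroup J) (hst : ∀ i, ∀ y ∈ JQ, g i y ∈ JQ) (hfg : AddGroup.FG ↥JQ)
    (r : ℕ) (hr : r.Prime) (hfin : ∀ k : ℕ, Finite {x : J // r ^ k • x = 0})
    (N C : ℕ) (hN : 0 < N)
    (hdesc : ∀ k : ℕ, 0 < k → ∀ e ∈ Subring.closure (Set.range g), IsEisProj g n r k e →
      ∃ (X : Type w) (_ : AddCommGroup X) (S : AddSubgroup X) (φ : ↥JQ →+ X),
        Finite S ∧ Nat.card S ≤ C ∧
        (∀ z : ↥JQ, φ (r ^ k • z) = 0) ∧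
        (∀ y : ↥JQ, (∃ z : ↥JQ, (y : J) - e y = r ^ k • (z : J)) → φ y ∈ S) ∧
        (∀ y : ↥JQ, (∃ z : ↥JQ, (y : J) - e y = r ^ k • (z : J)) → φ y = 0 →
          ∃ z : ↥JQ, N • (y : J) = r ^ k • (z : J))) :
    ∃ t ∈ Subring.closure (Set.range g),
      (∃ s : ℤ, ¬ (r : ℤ) ∣ s ∧ t c0 = s • c0) ∧
        ∀ y ∈ JQ, ∃ M : ℕ, 0 < M ∧ M • t y = 0 := by
  obtain ⟨e₁, he₁, hproj₁⟩ := exists_isEisProj g hcomm n r 1 (hfin 1)
  obtain ⟨X₁, instX₁, S₁, φ₁, hfin₁, hC₁, -, -, -⟩ := hdesc 1 Nat.one_pos e₁ he₁ hproj₁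
  refine eisenstein_fin_of_descent g hcomm n c0 hc0 JQ hst hfg r hr hfin N C hN
    fun k e he hproj => ?_
  rcases Nat.eq_zero_or_pos k with rfl | hk
  · exact ⟨X₁, instX₁, S₁, 0, hfin₁, hC₁, fun _ => rfl, fun _ _ => S₁.zero_mem,
      fun y _ _ => ⟨N • y, by rw [pow_zero, one_smul]; rfl⟩⟩
  · exact hdesc k hk e he hproj

/-- **S-FIN-ABS, set form**: `T' := Subring.closure G` for a set `G` of pairwise commuting
endomorphisms with eigenvalues `n a` on `c0`. -/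
theorem eisenstein_fin_of_descent_set (G : Set (Module.End ℤ J))
    (hcomm : ∀ a ∈ G, ∀ b ∈ G, a * b = b * a)
    (n : Module.End ℤ J → ℤ) (c0 : J) (hc0 : ∀ a ∈ G, a c0 = n a • c0)
    (JQ : AddSubgroup J) (hst : ∀ a ∈ G, ∀ y ∈ JQ, a y ∈ JQ) (hfg : AddGroup.FG ↥JQ)
    (r : ℕ) (hr : r.Prime) (hfin : ∀ k : ℕ, Finite {x : J // r ^ k • x = 0})
    (N C : ℕ) (hN : 0 < N)
    (hdesc : ∀ k : ℕ, ∀ e ∈ Subring.closure G,
      IsEisProj (fun a : ↥G => (a : Module.End ℤ J)) (fun a => n a) r k e →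
      ∃ (X : Type w) (_ : AddCommGroup X) (S : AddSubgroup X) (φ : ↥JQ →+ X),
        Finite S ∧ Nat.card S ≤ C ∧
        (∀ z : ↥JQ, φ (r ^ k • z) = 0) ∧
        (∀ y : ↥JQ, (∃ z : ↥JQ, (y : J) - e y = r ^ k • (z : J)) → φ y ∈ S) ∧
        (∀ y : ↥JQ, (∃ z : ↥JQ, (y : J) - e y = r ^ k • (z : J)) → φ y = 0 →
          ∃ z : ↥JQ, N • (y : J) = r ^ k • (z : J))) :
    ∃ t ∈ Subring.closure G,
      (∃ s : ℤ, ¬ (r : ℤ) ∣ s ∧ t c0 = s • c0) ∧
        ∀ y ∈ JQ, ∃ M : ℕ, 0 < M ∧ M • t y = 0 := by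
  have hrange : Set.range (fun a : ↥G => (a : Module.End ℤ J)) = G := Subtype.range_coe
  have := eisenstein_fin_of_descent (fun a : ↥G => (a : Module.End ℤ J))
    (fun a b => hcomm a.1 a.2 b.1 b.2) (fun a => n a) c0 (fun a => hc0 a.1 a.2) JQ
    (fun a => hst a.1 a.2) hfg r hr hfin N C hN (by
      intro k e he
      rw [hrange] at he
      exact hdesc k e he)
  rw [hrange] at this
  exact this

/-- Passing from a subgroup `A` with `i • JQ ⊆ A` back to `JQ` (the finite-index trick (K3)). -/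
theorem torsion_of_index (t : Module.End ℤ J) (A JQ : AddSubgroup J) (i : ℕ) (hi : 0 < i)
    (hidx : ∀ y ∈ JQ, i • y ∈ A) (h : ∀ a ∈ A, ∃ M : ℕ, 0 < M ∧ M • t a = 0) :
    ∀ y ∈ JQ, ∃ M : ℕ, 0 < M ∧ M • t y = 0 := by
  intro y hy
  obtain ⟨M, hM, h0⟩ := h _ (hidx y hy)
  refine ⟨M * i, Nat.mul_pos hM hi, ?_⟩
  rw [mul_smul, ← map_nsmul]
  exact h0

end Main

end Fermat.Agent.MAZ.FinAbs19
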