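/-
Fermat/Agent/MAZ/FinAbs19/JZero.lean  (helper19)

Programme MAZ (S15), brick S-FIN-ABS, part 4: **the instantiation at `J₀(p)`**.

`eisenstein_fin_of_descent_JZero` is helper99's `eisenstein_fin` (report 959) with exactly TWO
hypotheses left:

* `hfg`   : `AddGroup.FG ↥(JQ p)`                 (= S17, Mordell–Weil for `J₀(p)(ℚ)`);
* `hdesc` : the descent data (D0)–(D2) of `FinAbs19.eisenstein_fin_of_descent` (Kummer map into a
            bounded Selmer group: K-DEF + (K1)–(K3),(K-inf) + S-SEL).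

Everything else is discharged from the tree: commutativity of the `T_q` (F-COMM, `Comm61`), the
Eisenstein eigenvector `c₀` (F-E1, `HeckeCusp89.hecke_c0`), Galois-equivariance of the `T_q`
(`HeckeGalois12`), finiteness of `J₀(p)[r ^ k]` (`KummerSystemFinal24.finite_p_torsionJ`).

Definitions (shared vocabulary for the MAZ bricks):
* `heckeRing p S` (`= T' p S` of report 959), `JQ p` (as in S17), `PrimesOutside S`,
  `heckeGen p S q := heckeOperatorBar p q`, `heckeEig S q := q + 1`.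
-/
import Mathlib
import Fermat.Agent.MAZ.FinAbs19.Main
import Fermat.Agent.MAZ.Comm61.Main
import Fermat.Agent.MAZ.HeckeCusp89.HeckeCusp
import Fermat.Agent.ES.HECKE.HeckeGalois12
import Fermat.Agent.ES.J.KummerSystemFinal24

set_option autoImplicit false
set_option linter.unusedSectionVars false
set_option linter.unusedVariables false
set_option linter.style.haveILetI false

open AlgebraicCurve ModularCurve

noncomputable section

namespace Fermat.Agent.MAZ.FinAbs19

universe w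

/-! ### Finiteness of `r ^ k`-torsion from finiteness of `r`-torsion -/

section Torsion

variable {J : Type*} [AddCommGroup J]

/-- In an abelian group with finite `r`-torsion, the `r ^ k`-torsion is finite for every `k`. -/
theorem finite_pow_torsion (r : ℕ) (h : {x : J | r • x = 0}.Finite) (k : ℕ) :
    {x : J | r ^ k • x = 0}.Finite := by
  induction k with
  | zero =>
    refine (Set.finite_singleton (0 : J)).subset ?_
    intro x hx
    have hx' : r ^ 0 • x = 0 := hx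
    rw [pow_zero, one_smul] at hx'
    exact hx'
  | succ k ih =>
    have hpre : {x : J | r ^ (k + 1) • x = 0} = (fun x : J => r • x) ⁻¹' {x : J | r ^ k • x = 0} := by
      ext x
      show r ^ (k + 1) • x = 0 ↔ r ^ k • (r • x) = 0
      rw [pow_succ, mul_smul]
    rw [hpre]
    refine Set.Finite.preimage' ih ?_
    intro b _
    by_cases hne : ((fun x : J => r • x) ⁻¹' {b}).Nonempty
    · obtain ⟨x0, hx0⟩ := hne
      have hx0' : r • x0 = b := hx0
      refine (h.image (fun y => x0 + y)).subset ?_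
      intro x hx
      have hx' : r • x = b := hx
      refine ⟨x - x0, ?_, by show x0 + (x - x0) = x; abel⟩
      show r • (x - x0) = 0
      rw [smul_sub, hx', hx0', sub_self]
    · rw [Set.not_nonempty_iff_eq_empty] at hne
      rw [hne]
      exact Set.finite_empty

end Torsion

/-! ### The vocabulary at `J₀(p)` -/

/-- `ℚbar`. -/
local notation "Qb" => AlgebraicClosure ℚ

variable (p : ℕ) [NeZero p]

/-- `T' p S`: the subring of `End J₀(p)` generated by the `T_q`, `q ∉ S` (report 959). -/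
def heckeRing (S : Finset ℕ) : Subring (Module.End ℤ (JZero p)) :=
  Subring.closure {T | ∃ q : Nat.Primes, (q : ℕ) ∉ S ∧ T = heckeOperatorBar p q}

/-- `J₀(p)(ℚ)`, as in S17. -/
abbrev JQ : AddSubgroup (JZero p) := FixedPoints.addSubgroup (Qb ≃ₐ[ℚ] Qb) (JZero p)

theorem mem_JQ {y : JZero p} : y ∈ JQ p ↔ ∀ σ : Qb ≃ₐ[ℚ] Qb, σ • y = y := Iff.rfl

/-- The primes outside `S`. -/
abbrev PrimesOutside (S : Finset ℕ) : Type := {q : Nat.Primes // (q : ℕ) ∉ S}

/-- The generators `T_q`, `q ∉ S`. -/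
def heckeGen (S : Finset ℕ) : PrimesOutside S → Module.End ℤ (JZero p) :=
  fun q => heckeOperatorBar p q.1

/-- The Eisenstein eigenvalues `q + 1`. -/
def heckeEig (S : Finset ℕ) : PrimesOutside S → ℤ := fun q => (((q.1 : ℕ) : ℤ)) + 1

theorem range_heckeGen (S : Finset ℕ) :
    Set.range (heckeGen p S) = {T | ∃ q : Nat.Primes, (q : ℕ) ∉ S ∧ T = heckeOperatorBar p q} := by
  ext T
  constructor
  · rintro ⟨q, rfl⟩
    exact ⟨q.1, q.2, rfl⟩
  · rintro ⟨q, hq, rfl⟩
    exact ⟨⟨q, hq⟩, rfl⟩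

theorem heckeRing_eq (S : Finset ℕ) : heckeRing p S = Subring.closure (Set.range (heckeGen p S)) := by
  rw [range_heckeGen]
  rfl

theorem heckeGen_mem (S : Finset ℕ) (q : PrimesOutside S) : heckeGen p S q ∈ heckeRing p S :=
  Subring.subset_closure ⟨q.1, q.2, rfl⟩

/-- F-COMM for the generators. -/
theorem heckeGen_comm (hp : p.Prime) (S : Finset ℕ) (hpS : p ∈ S) (q q' : PrimesOutside S) :
    heckeGen p S q * heckeGen p S q' = heckeGen p S q' * heckeGen p S q := by
  have hq : ¬ ((q.1 : ℕ) ∣ p) := fun h =>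
    q.2 (((Nat.prime_dvd_prime_iff_eq q.1.2 hp).1 h) ▸ hpS)
  have hq' : ¬ ((q'.1 : ℕ) ∣ p) := fun h =>
    q'.2 (((Nat.prime_dvd_prime_iff_eq q'.1.2 hp).1 h) ▸ hpS)
  exact Fermat.Agent.MAZ.Comm61.Main.heckeOperatorBar_mul_comm p q.1 q'.1 hq hq'

/-- F-E1 for the generators. -/
theorem heckeGen_c0 (hp : p.Prime) (S : Finset ℕ) (hpS : p ∈ S) (q : PrimesOutside S) :
    heckeGen p S q (Fermat.Agent.MAZ.HeckeCusp89.c0 p) =
      heckeEig S q • Fermat.Agent.MAZ.HeckeCusp89.c0 p := by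
  have hq : (q.1 : ℕ) ≠ p := fun h => q.2 (h ▸ hpS)
  have h := Fermat.Agent.MAZ.HeckeCusp89.hecke_c0 p hp q.1 hq
  rw [heckeGen, h, heckeEig]
  have : (((q.1 : ℕ) : ℤ) + 1) = (((q.1 : ℕ) + 1 : ℕ) : ℤ) := by push_cast; rfl
  rw [this, natCast_zsmul]

/-- `J₀(p)(ℚ)` is stable under the `T_q`. -/
theorem heckeGen_JQ (S : Finset ℕ) (q : PrimesOutside S) (y : JZero p) (hy : y ∈ JQ p) :
    heckeGen p S q y ∈ JQ p := by
  intro σ
  show σ • heckeOperatorBar p q.1 y = heckeOperatorBar p q.1 y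
  rw [← Fermat.Agent.ES.HECKE.HeckeGalois12.heckeOperatorBar_smul p q.1 σ y, hy σ]

/-- `J₀(p)[r ^ k]` is finite. -/
theorem finite_rpow_torsion (r : ℕ) (hr : r.Prime) (k : ℕ) :
    Finite {x : JZero p // r ^ k • x = 0} := by
  haveI : Fact r.Prime := ⟨hr⟩
  exact (finite_pow_torsion r
    (Fermat.Agent.ES.J.KummerSystemFinal24.finite_p_torsionJ r p) k).to_subtype

/-- Every element of `T' p S` commutes with the Galois action. -/
theorem heckeRing_smul (S : Finset ℕ) {t : Module.End ℤ (JZero p)} (ht : t ∈ heckeRing p S)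
    (σ : Qb ≃ₐ[ℚ] Qb) (x : JZero p) : t (σ • x) = σ • t x := by
  rw [heckeRing_eq] at ht
  exact closure_commute (heckeGen p S) (DistribSMul.toAddMonoidHom (JZero p) σ)
    (fun q x => Fermat.Agent.ES.HECKE.HeckeGalois12.heckeOperatorBar_smul p q.1 σ x) t ht x

/-- Every element of `T' p S` preserves `J₀(p)(ℚ)`. -/
theorem heckeRing_JQ (S : Finset ℕ) {t : Module.End ℤ (JZero p)} (ht : t ∈ heckeRing p S)
    {y : JZero p} (hy : y ∈ JQ p) : t y ∈ JQ p := by
  rw [heckeRing_eq] at ht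
  exact closure_stable (heckeGen p S) (JQ p) (fun q y hy => heckeGen_JQ p S q y hy) t ht y hy

/-- **(FIN') for `J₀(p)` modulo S17 and the descent data.** -/
theorem eisenstein_fin_of_descent_JZero (hp : p.Prime) (S : Finset ℕ) (hpS : p ∈ S)
    (r : ℕ) (hr : r.Prime) (hfg : AddGroup.FG ↥(JQ p)) (N C : ℕ) (hN : 0 < N)
    (hdesc : ∀ k : ℕ, ∀ e ∈ heckeRing p S, IsEisProj (heckeGen p S) (heckeEig S) r k e →
      ∃ (X : Type w) (_ : AddCommGroup X) (Sel : AddSubgroup X) (φ : ↥(JQ p) →+ X),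
        Finite Sel ∧ Nat.card Sel ≤ C ∧
        (∀ z : ↥(JQ p), φ (r ^ k • z) = 0) ∧
        (∀ y : ↥(JQ p), (∃ z : ↥(JQ p), (y : JZero p) - e y = r ^ k • (z : JZero p)) →
          φ y ∈ Sel) ∧
        (∀ y : ↥(JQ p), (∃ z : ↥(JQ p), (y : JZero p) - e y = r ^ k • (z : JZero p)) →
          φ y = 0 → ∃ z : ↥(JQ p), N • (y : JZero p) = r ^ k • (z : JZero p))) :
    ∃ t ∈ heckeRing p S,
      (∃ s : ℤ, ¬ (r : ℤ) ∣ s ∧
        t (Fermat.Agent.MAZ.HeckeCusp89.c0 p) = s • Fermat.Agent.MAZ.HeckeCusp89.c0 p) ∧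
      ∀ y ∈ JQ p, ∃ M : ℕ, 0 < M ∧ M • t y = 0 := by
  have key := eisenstein_fin_of_descent (heckeGen p S) (heckeGen_comm p hp S hpS) (heckeEig S)
    (Fermat.Agent.MAZ.HeckeCusp89.c0 p) (heckeGen_c0 p hp S hpS) (JQ p)
    (fun q y hy => heckeGen_JQ p S q y hy) hfg r hr (finite_rpow_torsion p r hr) N C hN (by
      intro k e he
      rw [← heckeRing_eq] at he
      exact hdesc k e he)
  rw [← heckeRing_eq] at key
  exact key

/-- **(FIN') for `J₀(p)` modulo S17 and the descent data for `k ≥ 1`.** -/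
theorem eisenstein_fin_of_descent_JZero_pos (hp : p.Prime) (S : Finset ℕ) (hpS : p ∈ S)
    (r : ℕ) (hr : r.Prime) (hfg : AddGroup.FG ↥(JQ p)) (N C : ℕ) (hN : 0 < N)
    (hdesc : ∀ k : ℕ, 0 < k → ∀ e ∈ heckeRing p S,
      IsEisProj (heckeGen p S) (heckeEig S) r k e →
      ∃ (X : Type w) (_ : AddCommGroup X) (Sel : AddSubgroup X) (φ : ↥(JQ p) →+ X),
        Finite Sel ∧ Nat.card Sel ≤ C ∧
        (∀ z : ↥(JQ p), φ (r ^ k • z) = 0) ∧
        (∀ y : ↥(JQ p), (∃ z : ↥(JQ p), (y : JZero p) - e y = r ^ k • (z : JZero p)) →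
          φ y ∈ Sel) ∧
        (∀ y : ↥(JQ p), (∃ z : ↥(JQ p), (y : JZero p) - e y = r ^ k • (z : JZero p)) →
          φ y = 0 → ∃ z : ↥(JQ p), N • (y : JZero p) = r ^ k • (z : JZero p))) :
    ∃ t ∈ heckeRing p S,
      (∃ s : ℤ, ¬ (r : ℤ) ∣ s ∧
        t (Fermat.Agent.MAZ.HeckeCusp89.c0 p) = s • Fermat.Agent.MAZ.HeckeCusp89.c0 p) ∧
      ∀ y ∈ JQ p, ∃ M : ℕ, 0 < M ∧ M • t y = 0 := by
  have key := eisenstein_fin_of_descent_pos (heckeGen p S) (heckeGen_comm p hp S hpS) (heckeEig S)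
    (Fermat.Agent.MAZ.HeckeCusp89.c0 p) (heckeGen_c0 p hp S hpS) (JQ p)
    (fun q y hy => heckeGen_JQ p S q y hy) hfg r hr (finite_rpow_torsion p r hr) N C hN (by
      intro k hk e he
      rw [← heckeRing_eq] at he
      exact hdesc k hk e he)
  rw [← heckeRing_eq] at key
  exact key

end Fermat.Agent.MAZ.FinAbs19
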