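/-
Fermat/Agent/MAZ/FinAbs19/SFin.lean  (helper19)

Programme MAZ (S15), brick S-FIN: **(FIN') for `J₀(p)` from the Kummer / Selmer inputs**.

`eisenstein_fin_of_kummer` = helper99's `eisenstein_fin` (report 959), with the still-open external
inputs as explicit hypotheses, each in the exact shape in which its brick delivers it:

* `hfg`  : `AddGroup.FG ↥(JQ p)`                                              [S17, MW]
* `hdiv`, `hsm` : `r ^ k`-divisibility and smoothness of `J₀(p)(ℚ̄)`          [Kum5/JZero, helper5]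
* `hmem` : `G_k = Gm p r S k` belongs to the class of `selSystem r (r ^ k) χ 𝒥`
           (flat, unramified at `𝒥`, `RClass`)                                [T1A + X-ES-A1 + UNR-G]
* `hsel` : `|SelF … ![Ip, ⟨cc⟩] G_k| ≤ |G_k^{G_ℚ}|`                           [S-SEL: SSelInst97.card_selF_le_all]
* `hK`   : for every rational point `x` and every `k`: a division point `z`, `r ^ k • z = x`, which is
           (K1) fixed by every `I ∈ 𝒥`, (K2) has a flat Kummer cocycle, and (K3) a division point `z'`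
           of `M₁ • x` fixed by `Ip`                                           [UNR-G/K1, T1A-X, T1B-U]

It glues `FinAbs19.eisenstein_fin_of_descent_JZero` (this directory) with helper42's
`FlatCond42.KumSel` ((D0), (D1), (D2)) and `Alg5.TorsFin.exists_card_bound_of_fg` (L-A4).
No TW / T1A / T1B import.
-/
import Mathlib
import Fermat.Agent.MAZ.FinAbs19.JZero
import Fermat.Agent.MAZ.FlatCond42.KumSel
import Fermat.Agent.MAZ.Gm5.Defs
import Fermat.Agent.MAZ.Alg5.TorsFin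

set_option autoImplicit false
set_option linter.unusedSectionVars false
set_option linter.unusedVariables false
set_option linter.style.haveILetI false

open AlgebraicCurve ModularCurve

noncomputable section

namespace Fermat.Agent.MAZ.FinAbs19

open Fermat.Agent.Flat44 Fermat.Agent.MAZ.SelCoh42 Fermat.Agent.MAZ.FlatCond42
open Fermat.Agent.MAZ.Kum5 Fermat.Agent.MAZ.Alg5

variable (p : ℕ) [NeZero p]

/-! ### Bridges to `Gm5` -/

theorem heckeRing_eq_Gm5 (S : Finset ℕ) : heckeRing p S = Gm5.heckeRing p S := rfl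

/-- `η_q` of `FinAbs19` is `Gm5.etaBar`. -/
theorem etaEnd_heckeGen (S : Finset ℕ) (q : PrimesOutside S) :
    etaEnd (heckeGen p S) (heckeEig S) q = Gm5.etaBar p q.1 := by
  unfold etaEnd Gm5.etaBar heckeGen heckeEig
  congr 1
  push_cast
  rw [add_comm]

theorem etaBar_mem (S : Finset ℕ) {q : Nat.Primes} (hq : (q : ℕ) ∉ S) :
    Gm5.etaBar p q ∈ heckeRing p S := Gm5.etaBar_mem_heckeRing p hq

/-- `G_k = J₀(p)[r ^ k]_m` as a Galois-stable subgroup. -/
def GmStable (r : ℕ) (S : Finset ℕ) (k : ℕ) : StableSub GQ (JZero p) where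
  W := Gm5.Gm p r S k
  stable := by
    rintro g x ⟨hx, hx'⟩
    refine ⟨?_, fun q hq => ?_⟩
    · rw [← smul_comm, hx, smul_zero]
    · obtain ⟨n, hn⟩ := hx' q hq
      refine ⟨n, ?_⟩
      rw [heckeRing_smul p S (Subring.pow_mem _ (etaBar_mem p S hq) n) g x, hn]
      exact smul_zero (A := JZero p) g

@[simp] theorem GmStable_W (r : ℕ) (S : Finset ℕ) (k : ℕ) :
    (GmStable p r S k).W = Gm5.Gm p r S k := rfl

theorem nsmul_eq_zero_of_mem_Gm {r : ℕ} {S : Finset ℕ} {k : ℕ} {y : JZero p}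
    (hy : y ∈ (GmStable p r S k).W) : r ^ k • y = 0 := hy.1

/-- An element of `T' p S` as a Galois-equivariant endomorphism. -/
def heckeEquivariant (S : Finset ℕ) (e : Module.End ℤ (JZero p)) (he : e ∈ heckeRing p S) :
    JZero p →+[GQ] JZero p where
  toFun := e
  map_smul' g x := heckeRing_smul p S he g x
  map_zero' := map_zero e
  map_add' := map_add e

@[simp] theorem heckeEquivariant_apply (S : Finset ℕ) (e : Module.End ℤ (JZero p))
    (he : e ∈ heckeRing p S) (x : JZero p) : heckeEquivariant p S e he x = e x := rfl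

/-- An Eisenstein projector maps `J[r ^ k]` into `G_k`. -/
theorem IsEisProj.mem_Gm {S : Finset ℕ} {r k : ℕ} {e : Module.End ℤ (JZero p)}
    (h : IsEisProj (heckeGen p S) (heckeEig S) r k e) {x : JZero p} (hx : r ^ k • x = 0) :
    e x ∈ (GmStable p r S k).W := by
  refine ⟨by rw [← map_nsmul, hx, map_zero], fun q hq => ?_⟩
  obtain ⟨m, hm⟩ := h.map_mem (heckeGen p S) hx ⟨q, hq⟩
  rw [etaEnd_heckeGen] at hm
  exact ⟨m, hm⟩

/-- `J₀(p)(ℚ)` in the two guises `FixedPoints.addSubgroup` (S17) and `SelCoh42.Inv ⊤`. -/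
def jqEquivInv : ↥(JQ p) ≃+ ↥(Inv (⊤ : Subgroup GQ) (JZero p)) where
  toFun y := ⟨y.1, mem_Inv_top.2 fun g => y.2 g⟩
  invFun y := ⟨y.1, fun g => mem_Inv_top.1 y.2 g⟩
  left_inv _ := rfl
  right_inv _ := rfl
  map_add' _ _ := rfl

@[simp] theorem coe_jqEquivInv (y : ↥(JQ p)) : ((jqEquivInv p y : ↥(Inv (⊤ : Subgroup GQ) (JZero p))) :
    JZero p) = (y : JZero p) := rfl

@[simp] theorem coe_jqEquivInv_symm (y : ↥(Inv (⊤ : Subgroup GQ) (JZero p))) :
    (((jqEquivInv p).symm y : ↥(JQ p)) : JZero p) = (y : JZero p) := rfl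

/-- **L-A4 in the form used here**: the Galois invariants of the `G_k` are uniformly bounded. -/
theorem exists_card_inv_Gm_le (hfg : AddGroup.FG ↥(JQ p)) (r : ℕ) (hr : r.Prime) (S : Finset ℕ) :
    ∃ C : ℕ, 0 < C ∧ ∀ k : ℕ, Nat.card (Inv (⊤ : Subgroup GQ) (GmStable p r S k).W) ≤ C := by
  obtain ⟨C, hC, hbound⟩ := exists_card_bound_of_fg (JQ p) hfg
  refine ⟨C, hC, fun k => ?_⟩
  -- the image of `G_k^{G_ℚ}` in `J₀(p)`
  let W : AddSubgroup (JZero p) :=
    (Inv (⊤ : Subgroup GQ) (GmStable p r S k).W).map (GmStable p r S k).W.subtype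
  have hW : W ≤ JQ p := by
    rintro _ ⟨y, hy, rfl⟩ g
    have := congrArg Subtype.val (mem_Inv_top.1 hy g)
    exact this
  have htors : ∀ x ∈ W, ∃ n : ℕ, 0 < n ∧ n • x = 0 := by
    rintro _ ⟨y, _, rfl⟩
    exact ⟨r ^ k, pow_pos hr.pos k, y.2.1⟩
  obtain ⟨_, hcard⟩ := hbound W hW htors
  have hinj : Function.Injective (GmStable p r S k).W.subtype := Subtype.val_injective
  have heq : Nat.card W = Nat.card (Inv (⊤ : Subgroup GQ) (GmStable p r S k).W) :=
    (Nat.card_congr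
      ((Inv (⊤ : Subgroup GQ) (GmStable p r S k).W).equivMapOfInjective _ hinj).toEquiv).symm
  rw [← heq]
  exact hcard

/-- **S-FIN: (FIN') for `J₀(p)` from the Kummer/Selmer inputs.** -/
theorem eisenstein_fin_of_kummer (hp : p.Prime) (S : Finset ℕ) (hpS : p ∈ S)
    (r : ℕ) [hr : Fact r.Prime]
    (hfg : AddGroup.FG ↥(JQ p))
    (hdiv : ∀ k : ℕ, ∀ x : JZero p, ∃ y : JZero p, r ^ k • y = x)
    (hsm : IsSmooth galLevel (JZero p))
    (χ : GQ →* (ZMod r)ˣ) (𝒥 : Set (Subgroup GQ)) (Ip : Subgroup GQ) (cc : GQ) (hcc : cc * cc = 1)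
    (hmem : ∀ k : ℕ, (selSystem r (r ^ k) χ 𝒥).mem (GmStable p r S k).W)
    (hsel : ∀ k : ℕ,
      Finite (SelF (selSystem r (r ^ k) χ 𝒥) ![Ip, Subgroup.zpowers cc] (GmStable p r S k).W) ∧
      Nat.card (SelF (selSystem r (r ^ k) χ 𝒥) ![Ip, Subgroup.zpowers cc] (GmStable p r S k).W) ≤
        Nat.card (Inv (⊤ : Subgroup GQ) (GmStable p r S k).W))
    (M₁ : ℕ) (hM₁ : 0 < M₁)
    (hK : ∀ (k : ℕ) (x : ↥(Inv (⊤ : Subgroup GQ) (JZero p))),
      ∃ (z : JZero p) (hz : r ^ k • z = x.1),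
        (∀ I ∈ 𝒥, ∀ s ∈ I, s • z = z) ∧
        IsFlatCochain r (r ^ k) (kumCocycle galLevel (hdiv k) hsm z (fun g => by
          rw [hz]; exact mem_Inv_top.1 x.2 g)).1 ∧
        ∃ z' : JZero p, r ^ k • z' = M₁ • x.1 ∧ ∀ s ∈ Ip, s • z' = z') :
    ∃ t ∈ heckeRing p S,
      (∃ s : ℤ, ¬ (r : ℤ) ∣ s ∧
        t (Fermat.Agent.MAZ.HeckeCusp89.c0 p) = s • Fermat.Agent.MAZ.HeckeCusp89.c0 p) ∧
      ∀ y ∈ JQ p, ∃ M : ℕ, 0 < M ∧ M • t y = 0 := by
  obtain ⟨C, hC, hCk⟩ := exists_card_inv_Gm_le p hfg r hr.1 S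
  refine eisenstein_fin_of_descent_JZero p hp S hpS r hr.1 hfg (2 * M₁) C
    (Nat.mul_pos Nat.two_pos hM₁) ?_
  intro k e he heis
  -- the data of `KumSel`
  let G : StableSub GQ (JZero p) := GmStable p r S k
  let e' : JZero p →+[GQ] JZero p := heckeEquivariant p S e he
  have heG : ∀ x : JZero p, r ^ k • x = 0 → e' x ∈ G.W := fun x hx => heis.mem_Gm p hx
  have hGN : ∀ y ∈ G.W, r ^ k • y = 0 := fun y hy => hy.1
  obtain ⟨hSfin, hScard⟩ := hsel k
  refine ⟨H1 galLevel G.W, inferInstance,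
    SelF (selSystem r (r ^ k) χ 𝒥) ![Ip, Subgroup.zpowers cc] G.W,
    (kumSel (hdiv k) hsm G e' heG (2 * M₁)).comp (jqEquivInv p).toAddMonoidHom,
    hSfin, le_trans hScard (hCk k), ?_, ?_, ?_⟩
  · -- (D0)
    intro z
    show kumSel (hdiv k) hsm G e' heG (2 * M₁) (jqEquivInv p (r ^ k • z)) = 0
    rw [map_nsmul]
    exact kumSel_nsmul (hdiv k) hsm G e' heG (2 * M₁) (jqEquivInv p z)
  · -- (D1)
    intro y _
    obtain ⟨z, hz, hK1, hK2, z', hz', hK3⟩ := hK k (jqEquivInv p y)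
    exact kumSel_mem_selF (hdiv k) hsm G e' heG r χ 𝒥 Ip cc hcc (hmem k) M₁ (jqEquivInv p y) z hz
      hK1 hK2 z' hz' hK3
  · -- (D2)
    rintro y ⟨z, hz⟩ h0
    obtain ⟨w, hw⟩ := exists_nsmul_eq_of_kumSel_eq_zero (hdiv k) hsm G e' heG hGN (2 * M₁)
      (jqEquivInv p y) ⟨jqEquivInv p z, hz⟩ h0
    exact ⟨(jqEquivInv p).symm w, hw⟩

/-- **S-FIN, `k ≥ 1` only**: all inputs are only needed for `k ≥ 1` (so that `r ∣ r ^ k`, as required
by `SSelInst97.card_selF_le_final`, and no degenerate case `k = 0` has to be treated by the input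
bricks). -/
theorem eisenstein_fin_of_kummer_pos (hp : p.Prime) (S : Finset ℕ) (hpS : p ∈ S)
    (r : ℕ) [hr : Fact r.Prime]
    (hfg : AddGroup.FG ↥(JQ p))
    (hdiv : ∀ k : ℕ, ∀ x : JZero p, ∃ y : JZero p, r ^ k • y = x)
    (hsm : IsSmooth galLevel (JZero p))
    (χ : GQ →* (ZMod r)ˣ) (𝒥 : Set (Subgroup GQ)) (Ip : Subgroup GQ) (cc : GQ) (hcc : cc * cc = 1)
    (hmem : ∀ k : ℕ, 0 < k → (selSystem r (r ^ k) χ 𝒥).mem (GmStable p r S k).W)
    (hsel : ∀ k : ℕ, 0 < k →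
      Finite (SelF (selSystem r (r ^ k) χ 𝒥) ![Ip, Subgroup.zpowers cc] (GmStable p r S k).W) ∧
      Nat.card (SelF (selSystem r (r ^ k) χ 𝒥) ![Ip, Subgroup.zpowers cc] (GmStable p r S k).W) ≤
        Nat.card (Inv (⊤ : Subgroup GQ) (GmStable p r S k).W))
    (M₁ : ℕ) (hM₁ : 0 < M₁)
    (hK : ∀ (k : ℕ), 0 < k → ∀ (x : ↥(Inv (⊤ : Subgroup GQ) (JZero p))),
      ∃ (z : JZero p) (hz : r ^ k • z = x.1),
        (∀ I ∈ 𝒥, ∀ s ∈ I, s • z = z) ∧
        IsFlatCochain r (r ^ k) (kumCocycle galLevel (hdiv k) hsm z (fun g => by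
          rw [hz]; exact mem_Inv_top.1 x.2 g)).1 ∧
        ∃ z' : JZero p, r ^ k • z' = M₁ • x.1 ∧ ∀ s ∈ Ip, s • z' = z') :
    ∃ t ∈ heckeRing p S,
      (∃ s : ℤ, ¬ (r : ℤ) ∣ s ∧
        t (Fermat.Agent.MAZ.HeckeCusp89.c0 p) = s • Fermat.Agent.MAZ.HeckeCusp89.c0 p) ∧
      ∀ y ∈ JQ p, ∃ M : ℕ, 0 < M ∧ M • t y = 0 := by
  obtain ⟨C, hC, hCk⟩ := exists_card_inv_Gm_le p hfg r hr.1 S
  refine eisenstein_fin_of_descent_JZero_pos p hp S hpS r hr.1 hfg (2 * M₁) C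
    (Nat.mul_pos Nat.two_pos hM₁) ?_
  intro k hk e he heis
  let G : StableSub GQ (JZero p) := GmStable p r S k
  let e' : JZero p →+[GQ] JZero p := heckeEquivariant p S e he
  have heG : ∀ x : JZero p, r ^ k • x = 0 → e' x ∈ G.W := fun x hx => heis.mem_Gm p hx
  have hGN : ∀ y ∈ G.W, r ^ k • y = 0 := fun y hy => hy.1
  obtain ⟨hSfin, hScard⟩ := hsel k hk
  refine ⟨H1 galLevel G.W, inferInstance,
    SelF (selSystem r (r ^ k) χ 𝒥) ![Ip, Subgroup.zpowers cc] G.W,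
    (kumSel (hdiv k) hsm G e' heG (2 * M₁)).comp (jqEquivInv p).toAddMonoidHom,
    hSfin, le_trans hScard (hCk k), ?_, ?_, ?_⟩
  · intro z
    show kumSel (hdiv k) hsm G e' heG (2 * M₁) (jqEquivInv p (r ^ k • z)) = 0
    rw [map_nsmul]
    exact kumSel_nsmul (hdiv k) hsm G e' heG (2 * M₁) (jqEquivInv p z)
  · intro y _
    obtain ⟨z, hz, hK1, hK2, z', hz', hK3⟩ := hK k hk (jqEquivInv p y)
    exact kumSel_mem_selF (hdiv k) hsm G e' heG r χ 𝒥 Ip cc hcc (hmem k hk) M₁ (jqEquivInv p y) z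
      hz hK1 hK2 z' hz' hK3
  · rintro y ⟨z, hz⟩ h0
    obtain ⟨w, hw⟩ := exists_nsmul_eq_of_kumSel_eq_zero (hdiv k) hsm G e' heG hGN (2 * M₁)
      (jqEquivInv p y) ⟨jqEquivInv p z, hz⟩ h0
    exact ⟨(jqEquivInv p).symm w, hw⟩

end Fermat.Agent.MAZ.FinAbs19
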