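/-
Fermat/Agent/MAZ/FinAbs19/Final.lean  (helper19)

Programme MAZ (S15): **(FIN') for `J₀(p)` with the Selmer bound discharged**.

`eisenstein_fin_final` = `SFin.eisenstein_fin_of_kummer_pos` with
`χ := cycloChar r`, `𝒥 := SSelInst97.inertiaFamily p r` (all inertia groups at all primes `q ∉ {p, r}`),
`Ip := Ap.inertiaSubgroupIn ℚ` (`Ap` a place over `p ≠ r`), `cc := complexConjugation`, and the Selmer
bound `hsel` supplied by helper97's unconditional `SSelInst97.card_selF_le_final`.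

Hypotheses left (all for `k ≥ 1` only):
* `hfg`  : S17;                                   * `hdiv`, `hsm` : Kum5/JZero;
* `hmem` : `G_k` is in the Selmer class (flat at `r`, unramified outside `p r`, `RClass`);
* `h1`   : (A2)  `|G_k| ≤ |G_k^{I_p}|²`;           * `h2` : (A3') `|G_k| ≤ |G_k^{⟨c⟩}|²`;
* `hK`   : (K1) + (K2) + (K3).
-/
import Mathlib
import Fermat.Agent.MAZ.FinAbs19.SFin
import Fermat.Agent.MAZ.SSelInst97.Final

set_option autoImplicit false
set_option linter.unusedSectionVars false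
set_option linter.unusedVariables false
set_option linter.style.haveILetI false

open AlgebraicCurve ModularCurve

noncomputable section

namespace Fermat.Agent.MAZ.FinAbs19

open Fermat.Agent.Flat44 Fermat.Agent.MAZ.SelCoh42 Fermat.Agent.MAZ.FlatCond42
open Fermat.Agent.MAZ.Kum5 Fermat.Agent.MAZ.Alg5 Fermat.Agent.MAZ.SSelInst97 ExtCitation

variable (p : ℕ) [NeZero p]

/-- A Galois-stable subgroup of a smooth module is smooth. -/
theorem isSmooth_stableSub {V : Type} [AddCommGroup V] [DistribMulAction GQ V]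
    (hsm : IsSmooth galLevel V) (T : StableSub GQ V) : IsSmooth galLevel T.W := by
  intro x
  obtain ⟨U, hU, h⟩ := hsm x.1
  exact ⟨U, hU, fun s hs => Subtype.ext (h s hs)⟩

/-- `G_k` is finite. -/
theorem finite_GmStable (r : ℕ) (hr : r.Prime) (S : Finset ℕ) (k : ℕ) :
    Finite (GmStable p r S k).W := by
  haveI := finite_rpow_torsion p r hr k
  refine Finite.of_injective
    (fun y : (GmStable p r S k).W => (⟨y.1, y.2.1⟩ : {x : JZero p // r ^ k • x = 0})) ?_
  intro a b h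
  have h' : (a : JZero p) = (b : JZero p) := Subtype.mk.inj h
  exact Subtype.ext h'

/-- **(FIN') for `J₀(p)`, Selmer bound discharged.** -/
theorem eisenstein_fin_final (hp : p.Prime) (S : Finset ℕ) (hpS : p ∈ S)
    (r : ℕ) [hr : Fact r.Prime] (hpr : p ≠ r)
    (Ap : ValuationSubring Qb) (hAp : Ap.LiesOverPrime p)
    (hfg : AddGroup.FG ↥(JQ p))
    (hdiv : ∀ k : ℕ, ∀ x : JZero p, ∃ y : JZero p, r ^ k • y = x)
    (hsm : IsSmooth galLevel (JZero p))
    (hmem : ∀ k : ℕ, 0 < k →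
      (selSystem r (r ^ k) (cycloChar r) (inertiaFamily p r)).mem (GmStable p r S k).W)
    (h1 : ∀ k : ℕ, 0 < k → Nat.card (GmStable p r S k).W ≤
      Nat.card (Inv (Ap.inertiaSubgroupIn ℚ) (GmStable p r S k).W) ^ 2)
    (h2 : ∀ k : ℕ, 0 < k → Nat.card (GmStable p r S k).W ≤
      Nat.card (Inv (Subgroup.zpowers complexConjugation) (GmStable p r S k).W) ^ 2)
    (M₁ : ℕ) (hM₁ : 0 < M₁)
    (hK : ∀ (k : ℕ), 0 < k → ∀ (x : ↥(Inv (⊤ : Subgroup GQ) (JZero p))),
      ∃ (z : JZero p) (hz : r ^ k • z = x.1),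
        (∀ I ∈ inertiaFamily p r, ∀ s ∈ I, s • z = z) ∧
        IsFlatCochain r (r ^ k) (kumCocycle galLevel (hdiv k) hsm z (fun g => by
          rw [hz]; exact mem_Inv_top.1 x.2 g)).1 ∧
        ∃ z' : JZero p, r ^ k • z' = M₁ • x.1 ∧ ∀ s ∈ Ap.inertiaSubgroupIn ℚ, s • z' = z') :
    ∃ t ∈ heckeRing p S,
      (∃ s : ℤ, ¬ (r : ℤ) ∣ s ∧
        t (Fermat.Agent.MAZ.HeckeCusp89.c0 p) = s • Fermat.Agent.MAZ.HeckeCusp89.c0 p) ∧
      ∀ y ∈ JQ p, ∃ M : ℕ, 0 < M ∧ M • t y = 0 := by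
  refine eisenstein_fin_of_kummer_pos p hp S hpS r hfg hdiv hsm (cycloChar r) (inertiaFamily p r)
    (Ap.inertiaSubgroupIn ℚ) complexConjugation complexConjugation_mul_self hmem ?_ M₁ hM₁ hK
  intro k hk
  haveI : Finite (GmStable p r S k).W := finite_GmStable p r hr.1 S k
  exact card_selF_le_final (r ^ k) (dvd_pow_self r hk.ne') hp hpr Ap hAp (GmStable p r S k).W
    (isSmooth_stableSub hsm (GmStable p r S k)) (hmem k hk) (h1 k hk) (h2 k hk)

end Fermat.Agent.MAZ.FinAbs19
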