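/-
Fermat/Agent/MAZ/FinAbs19/Leaves.lean  (helper19)

Programme MAZ (S15): **(FIN') from its open leaves** — the `hFIN` input of
`Endgame88.Inst.s15_of_inputs`, in its exact shape.

The five OPEN leaves, as `Prop`s (each is what its brick delivers; every per-`k` statement is for
`k ≥ 1` only):

* `LeafUnrG p r`   : inertia at every `q ∉ {p, r}` acts trivially on `J₀(p)[r^k]`          [helper64]
* `LeafK1 p r`     : every rational point has an `r^k`-division point fixed by those inertia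
                     groups                                                                  [helper64]
* `LeafES p r S`   : `Constituents5.IsQuadNilp (cycloChar r) (GmMod p r S k)`               [helper89]
* `LeafA3 p r S`   : `|G_k| ≤ |G_k^{⟨c⟩}|²`                                                  [helper72]
* `LeafK3 p r Ap`  : `∃ M₁ > 0`, every `M₁ • x` has an `r^k`-division point fixed by `I_p`  [T1B-U chain]

The four heavy UNCONDITIONAL inputs are taken as hypotheses so that this file stays light (no MW / T1A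
import); they are, literally:
* `hfg`   := `MW.s17_of_hweak p (MW.Weak65.hweak p)` (or `Fermat.Agent.S17.result p hp h5`);
* `hdiv`  := `Gm5.jzero_divisible_pow p r hr.pos`;
* `hflat` := `fun k => T1AX41.hasFlatModel_torsion p r hrp k`;
* `hK2`   := `fun k x z hz => T1AX41.hK2' …` (any division point).
`hsm` is `KumFlat97.isSmooth_JZero p` (imported here), (A2) is `A2Gm19` (unconditional).
-/
import Mathlib
import Fermat.Agent.MAZ.FinAbs19.Final
import Fermat.Agent.MAZ.Hmem19.Main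
import Fermat.Agent.MAZ.A2Gm19.Main

set_option autoImplicit false
set_option linter.unusedSectionVars false
set_option linter.unusedVariables false
set_option linter.style.haveILetI false

open AlgebraicCurve ModularCurve

noncomputable section

namespace Fermat.Agent.MAZ.FinAbs19

open Fermat.Agent.Flat44 Fermat.Agent.MAZ.SelCoh42 Fermat.Agent.MAZ.FlatCond42
open Fermat.Agent.MAZ.Kum5 Fermat.Agent.MAZ.SSelInst97 ExtCitation

variable (p : ℕ) [NeZero p]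

/-- **UNR-G**: inertia at `q ∉ {p, r}` acts trivially on `J₀(p)[r ^ k]`. -/
def LeafUnrG (r : ℕ) : Prop :=
  ∀ k : ℕ, 0 < k → ∀ J ∈ inertiaFamily p r, ∀ s ∈ J, ∀ x : JZero p, r ^ k • x = 0 → s • x = x

/-- **(K1)**: every rational point has an `r ^ k`-division point fixed by inertia at all
`q ∉ {p, r}`. -/
def LeafK1 (r : ℕ) : Prop :=
  ∀ k : ℕ, 0 < k → ∀ x : ↥(Inv (⊤ : Subgroup GQ) (JZero p)),
    ∃ z : JZero p, r ^ k • z = x.1 ∧ ∀ I ∈ inertiaFamily p r, ∀ s ∈ I, s • z = z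

/-- **hES / X-ES-A1**: `G_k` is in the class `C_r`. -/
def LeafES (r : ℕ) [Fact r.Prime] (S : Finset ℕ) : Prop :=
  ∀ k : ℕ, 0 < k →
    Fermat.Agent.MAZ.Constituents5.IsQuadNilp (cycloChar r) (Gm5.GmMod p r S k)

/-- **(A3')**: `|G_k| ≤ |G_k^{⟨c⟩}|²`, `c` = complex conjugation. -/
def LeafA3 (r : ℕ) (S : Finset ℕ) : Prop :=
  ∀ k : ℕ, 0 < k → Nat.card (GmStable p r S k).W ≤
    Nat.card (Inv (Subgroup.zpowers complexConjugation) (GmStable p r S k).W) ^ 2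

/-- **(K3)**: a uniform multiple of every rational point has `r ^ k`-division points fixed by the
inertia group `I_p` of `Ap`. -/
def LeafK3 (r : ℕ) (Ap : ValuationSubring Qb) : Prop :=
  ∃ M₁ : ℕ, 0 < M₁ ∧ ∀ k : ℕ, 0 < k → ∀ x : ↥(Inv (⊤ : Subgroup GQ) (JZero p)),
    ∃ z' : JZero p, r ^ k • z' = M₁ • x.1 ∧ ∀ s ∈ Ap.inertiaSubgroupIn ℚ, s • z' = z'

/-- **FIN-TOP**: (FIN') for one prime `r ≠ p` and one `S ∋ p`, from the open leaves and the four
unconditional heavy inputs. -/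
theorem eisenstein_fin_of_leaves (hp : p.Prime) (S : Finset ℕ) (hpS : p ∈ S)
    (r : ℕ) [hr : Fact r.Prime] (hpr : p ≠ r)
    (Ap : ValuationSubring Qb) (hAp : Ap.LiesOverPrime p)
    (hfg : AddGroup.FG ↥(JQ p))
    (hdiv : ∀ k : ℕ, ∀ x : JZero p, ∃ y : JZero p, r ^ k • y = x)
    (hflat : ∀ k : ℕ, HasFlatModel r ↥(Submodule.torsionBy ℤ (JZero p) ((r : ℤ) ^ k))
      (torsionAct p ((r : ℤ) ^ k)))
    (hK2 : ∀ (k : ℕ), 0 < k → ∀ (x : ↥(Inv (⊤ : Subgroup GQ) (JZero p))) (z : JZero p)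
      (hz : r ^ k • z = x.1),
      IsFlatCochain r (r ^ k) (kumCocycle galLevel (hdiv k)
        (Fermat.Agent.MAZ.KumFlat97.isSmooth_JZero p) z (fun g => by
          rw [hz]; exact mem_Inv_top.1 x.2 g)).1)
    (hUnr : LeafUnrG p r) (hK1 : LeafK1 p r) (hES : LeafES p r S) (hA3 : LeafA3 p r S)
    (hK3 : LeafK3 p r Ap) :
    ∃ t ∈ heckeRing p S,
      (∃ s : ℤ, ¬ (r : ℤ) ∣ s ∧
        t (Fermat.Agent.MAZ.HeckeCusp89.c0 p) = s • Fermat.Agent.MAZ.HeckeCusp89.c0 p) ∧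
      ∀ y ∈ JQ p, ∃ M : ℕ, 0 < M ∧ M • t y = 0 := by
  obtain ⟨M₁, hM₁, hK3'⟩ := hK3
  refine eisenstein_fin_final p hp S hpS r hpr Ap hAp hfg hdiv
    (Fermat.Agent.MAZ.KumFlat97.isSmooth_JZero p) ?_ ?_ hA3 M₁ hM₁ ?_
  · intro k hk
    exact Fermat.Agent.MAZ.Hmem19.mem_selSystem_Gm_of_isQuadNilp p r S k (cycloChar r)
      (inertiaFamily p r) (hflat k) (hUnr k hk) (hES k hk)
  · intro k _
    exact Fermat.Agent.MAZ.A2Gm19.card_Gm_le_card_inv_inertia_sq p hp r hr.1 hpr S k Ap hAp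
  · intro k hk x
    obtain ⟨z, hz, hz1⟩ := hK1 k hk x
    obtain ⟨z', hz', hz3⟩ := hK3' k hk x
    exact ⟨z, hz, hz1, hK2 k hk x z hz, z', hz', hz3⟩

/-- **FIN-TOP in the shape of `Endgame88`'s `hFIN`**: for all primes `r ∣ n` and all
`S ⊇ {2, 3, p, r}`. -/
theorem hFIN_of_leaves (hp : p.Prime) (n : ℕ) (hn : ∀ r : ℕ, r.Prime → r ∣ n → p ≠ r)
    (Ap : ValuationSubring Qb) (hAp : Ap.LiesOverPrime p)
    (hfg : AddGroup.FG ↥(JQ p))
    (hdiv : ∀ r : ℕ, r.Prime → ∀ k : ℕ, ∀ x : JZero p, ∃ y : JZero p, r ^ k • y = x)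
    (hflat : ∀ (r : ℕ) [Fact r.Prime], p ≠ r → ∀ k : ℕ,
      HasFlatModel r ↥(Submodule.torsionBy ℤ (JZero p) ((r : ℤ) ^ k)) (torsionAct p ((r : ℤ) ^ k)))
    (hK2 : ∀ (r : ℕ) [Fact r.Prime] (hr' : r.Prime), p ≠ r → ∀ (k : ℕ), 0 < k →
      ∀ (x : ↥(Inv (⊤ : Subgroup GQ) (JZero p))) (z : JZero p) (hz : r ^ k • z = x.1),
      IsFlatCochain r (r ^ k) (kumCocycle galLevel (hdiv r hr' k)
        (Fermat.Agent.MAZ.KumFlat97.isSmooth_JZero p) z (fun g => by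
          rw [hz]; exact mem_Inv_top.1 x.2 g)).1)
    (hUnr : ∀ r : ℕ, r.Prime → r ∣ n → LeafUnrG p r)
    (hK1 : ∀ r : ℕ, r.Prime → r ∣ n → LeafK1 p r)
    (hES : ∀ (r : ℕ) [Fact r.Prime], r ∣ n → ∀ S : Finset ℕ, ({2, 3, p, r} : Finset ℕ) ⊆ S →
      LeafES p r S)
    (hA3 : ∀ r : ℕ, r.Prime → r ∣ n → ∀ S : Finset ℕ, ({2, 3, p, r} : Finset ℕ) ⊆ S →
      LeafA3 p r S)
    (hK3 : ∀ r : ℕ, r.Prime → r ∣ n → LeafK3 p r Ap) :
    ∀ r : ℕ, r.Prime → r ∣ n → ∀ S : Finset ℕ, ({2, 3, p, r} : Finset ℕ) ⊆ S →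
      ∃ t ∈ Gm5.heckeRing p S,
        (∃ s : ℤ, ¬ (r : ℤ) ∣ s ∧
          t (Fermat.Agent.MAZ.HeckeCusp89.c0 p) = s • Fermat.Agent.MAZ.HeckeCusp89.c0 p) ∧
        ∀ y ∈ JQ p, ∃ N : ℕ, 0 < N ∧ N • t y = 0 := by
  intro r hr hrn S hS
  haveI : Fact r.Prime := ⟨hr⟩
  have hpS : p ∈ S := hS (by simp)
  have hpr : p ≠ r := hn r hr hrn
  exact eisenstein_fin_of_leaves p hp S hpS r hpr Ap hAp hfg (hdiv r hr) (hflat r hpr)
    (hK2 r hr hpr) (hUnr r hr hrn) (hK1 r hr hrn) (hES r hrn S hS) (hA3 r hr hrn S hS)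
    (hK3 r hr hrn)

end Fermat.Agent.MAZ.FinAbs19
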